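import Fermat.Agent.AsmL.LM

/-!
# Degeneracy data between levels
-/

set_option autoImplicit false
set_option linter.unusedSectionVars false
set_option linter.style.haveILetI false

open IsLocalRing
open Fermat.Agent.GalRep Fermat.Agent.Places Fermat.Agent.Cheb Fermat.Agent.TW Fermat.Agent.JT

namespace Fermat.Agent.AsmL

noncomputable section

local notation "Ω" => AlgebraicClosure ℚ

variable {O : Type} [CommRing O] [IsLocalRing O] [IsNoetherianRing O]
  [IsAdicComplete (maximalIdeal O) O] {p : ℕ} [hp : Fact p.Prime]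
  {hpO : (p : O) ∈ maximalIdeal O} [Invertible (2 : O)]
  {t : GQ → ResidueField O} {g₀ k₀ : GQ} {hgk : HG.IrrAt t g₀ k₀} {r : ℕ} {v : Fin r → ℕ}
  {Av : Fin r → ValuationSubring Ω} {m : Fin r → ℕ} {B : ℕ}

set_option genInjectivity false in
set_option genSizeOf false in
/-- **Degeneracy data** from the level `XU` to the level `XV = q · XU`. `T` is the Hecke operator
at `q` (the trace of Frobenius if `q ≠ p`). -/
structure IhD (XU XV : LM hpO hgk v Av m B) (q : ℕ) (T : XU.hg.TT) where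
  i1 : GM XU XV
  i2 : GM XU XV
  s1 : GM XV XU
  s2 : GM XV XU
  inj : ∀ x y, i1.u x + i2.u y ∈ maximalIdeal O • (⊤ : Submodule O XV.Y) →
    x ∈ maximalIdeal O • (⊤ : Submodule O XU.Y) ∧ y ∈ maximalIdeal O • (⊤ : Submodule O XU.Y)
  surj : ∀ x y, ∃ w, s1.u w = x ∧ s2.u w = y
  s11 : ∀ x, s1.u (i1.u x) = ((q : O) + 1) • x
  s12 : ∀ x, s1.u (i2.u x) = T • x
  s21 : ∀ x, s2.u (i1.u x) = T • x
  s22 : ∀ x, s2.u (i2.u x) = ((q : O) + 1) • x

/-- the data at a prime `q ≠ p` -/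
structure IhQ (XU XV : LM hpO hgk v Av m B) (q : ℕ) (Φ : GQ) extends
    IhD XU XV q (XU.hg.tt Φ) where
  new : ∀ y, s1.u y = 0 → s2.u y = 0 → (XV.hg.tt Φ ^ 2 - ((q : XV.hg.TT) + 1) ^ 2) • y = 0

/-- a map of levels injective modulo the maximal ideal of `O` -/
structure GMi (XM XV : LM hpO hgk v Av m B) extends GM XM XV where
  inj : ∀ x, u x ∈ maximalIdeal O • (⊤ : Submodule O XV.Y) →
    x ∈ maximalIdeal O • (⊤ : Submodule O XM.Y)

/-- composition of maps of levels -/
def GMi.comp {X₁ X₂ X₃ : LM hpO hgk v Av m B} (f : GMi X₁ X₂) (g : GMi X₂ X₃) : GMi X₁ X₃ where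
  u := g.u ∘ₗ f.u
  hu σ y := by rw [LinearMap.comp_apply, f.hu, g.hu]; rfl
  inj x hx := f.inj x (g.inj _ hx)

/-- the identity -/
def GMi.id (X : LM hpO hgk v Av m B) : GMi X X where
  u := LinearMap.id
  hu _ _ := rfl
  inj _ hx := hx

/-- the first degeneracy map -/
def IhD.gmi {XU XV : LM hpO hgk v Av m B} {q : ℕ} {T : XU.hg.TT} (I : IhD XU XV q T) :
    GMi XU XV where
  toGM := I.i1
  inj x hx := (I.inj x 0 (by rw [map_zero, add_zero]; exact hx)).1

end

end Fermat.Agent.AsmL
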