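import Fermat.Agent.TW.GrpRing

/-!
# Coordinates over group rings
-/

set_option autoImplicit false
set_option linter.unusedSectionVars false
set_option linter.style.haveILetI false

noncomputable section

namespace Fermat.Agent.AsmL

open Matrix IsLocalRing Fermat.Agent.TW

variable {O G : Type} [CommRing O] [CommRing G] [Algebra O G] {r : ℕ}

/-- coordinates on a module `X` with an action of `A` -/
structure Crd (δ : Fin r → G) {A X : Type} [CommRing A] [Algebra O A] [AddCommGroup X]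
    [Module O X] (ac : A →ₐ[O] Module.End O X) (γ : Fin r → A) where
  d : ℕ
  E : X ≃ₗ[O] (Fin d → G)
  f : A →ₐ[O] Matrix (Fin d) (Fin d) G
  hE : ∀ a m, E (ac a m) = (f a).mulVec (E m)
  hγ : ∀ i, f (γ i) = Matrix.scalar (Fin d) (δ i)

namespace Crd

variable {δ : Fin r → G} {A : Type} [CommRing A] [Algebra O A] {γ : Fin r → A}
  {X : Type} [AddCommGroup X] [Module O X] {ac : A →ₐ[O] Module.End O X}
  {X₁ : Type} [AddCommGroup X₁] [Module O X₁] {ac₁ : A →ₐ[O] Module.End O X₁}
  {X₂ : Type} [AddCommGroup X₂] [Module O X₂] {ac₂ : A →ₐ[O] Module.End O X₂}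
  (C : Crd (O := O) δ ac γ) (C₁ : Crd (O := O) δ ac₁ γ) (C₂ : Crd (O := O) δ ac₂ γ)

theorem scalar_mulVec {d : ℕ} (g : G) (z : Fin d → G) :
    (Matrix.scalar (Fin d) g).mulVec z = g • z := by
  rw [Matrix.scalar_apply]
  funext i
  rw [Matrix.mulVec_diagonal]
  rfl

theorem E_γ (i : Fin r) (x : X) : C.E (ac (γ i) x) = δ i • C.E x := by
  rw [C.hE, C.hγ, scalar_mulVec]

theorem ext_mulVec {κ : Type} {B B' : Matrix κ (Fin C.d) G}
    (h : ∀ x, B.mulVec (C.E x) = B'.mulVec (C.E x)) : B = B' := by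
  refine Matrix.ext_of_mulVec_single fun j => ?_
  obtain ⟨x, hx⟩ := C.E.surjective (Pi.single j 1)
  rw [← hx]
  exact h x

/-- equivariant maps are linear over the group ring -/
theorem lin (hG : Algebra.adjoin O (Set.range δ) = ⊤) (u : X₁ →ₗ[O] X₂)
    (hu : ∀ a x, u (ac₁ a x) = ac₂ a (u x)) (g : G) (z : Fin C₁.d → G) :
    C₂.E (u (C₁.E.symm (g • z))) = g • C₂.E (u (C₁.E.symm z)) := by
  have hg : g ∈ Algebra.adjoin O (Set.range δ) := hG ▸ trivial
  induction hg using Algebra.adjoin_induction generalizing z with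
  | mem g hg =>
    obtain ⟨i, rfl⟩ := hg
    obtain ⟨x, rfl⟩ := C₁.E.surjective z
    rw [← C₁.E_γ, LinearEquiv.symm_apply_apply, LinearEquiv.symm_apply_apply, hu, C₂.E_γ]
  | algebraMap o =>
    rw [algebraMap_smul, map_smul, map_smul, map_smul, algebraMap_smul]
  | add g g' _ _ h1 h2 =>
    rw [add_smul, map_add, map_add, map_add, h1, h2, add_smul]
  | mul g g' _ _ h1 h2 =>
    rw [mul_smul, h1, h2, mul_smul]

/-- the matrix of an equivariant map -/
theorem exists_mat (hG : Algebra.adjoin O (Set.range δ) = ⊤) (u : X₁ →ₗ[O] X₂)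
    (hu : ∀ a x, u (ac₁ a x) = ac₂ a (u x)) :
    ∃ m : Matrix (Fin C₂.d) (Fin C₁.d) G, (∀ x, C₂.E (u x) = m.mulVec (C₁.E x)) ∧
      ∀ a, C₂.f a * m = m * C₁.f a := by
  let F : (Fin C₁.d → G) →ₗ[G] (Fin C₂.d → G) :=
    { toFun := fun z => C₂.E (u (C₁.E.symm z))
      map_add' := fun x y => by rw [map_add, map_add, map_add]
      map_smul' := fun g z => C₁.lin C₂ hG u hu g z }
  have hF : ∀ x, C₂.E (u x) = (LinearMap.toMatrix' F).mulVec (C₁.E x) := by
    intro x
    rw [LinearMap.toMatrix'_mulVec]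
    change _ = C₂.E (u (C₁.E.symm (C₁.E x)))
    rw [LinearEquiv.symm_apply_apply]
  refine ⟨LinearMap.toMatrix' F, hF, fun a => C₁.ext_mulVec fun x => ?_⟩
  rw [← Matrix.mulVec_mulVec, ← Matrix.mulVec_mulVec, ← hF, ← C₁.hE, ← hF, ← C₂.hE, hu]

end Crd

theorem adjoin_δ (O : Type) [CommRing O] (P : Fin r → ℕ) :
    Algebra.adjoin O (Set.range (GR.δ O P)) = ⊤ := by
  rw [eq_top_iff]
  rintro x -
  obtain ⟨f, rfl⟩ := GR.mk_surjective O P x
  induction f using MvPolynomial.induction_on with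
  | C a =>
    rw [← MvPolynomial.algebraMap_eq, AlgHom.commutes]
    exact Subalgebra.algebraMap_mem _ _
  | add p q hp hq => rw [map_add]; exact Subalgebra.add_mem _ hp hq
  | mul_X p i hp =>
    rw [map_mul]
    exact Subalgebra.mul_mem _ hp (Algebra.subset_adjoin ⟨i, rfl⟩)

section split

variable {G : Type} [CommRing G] [IsLocalRing G]

/-- a matrix injective modulo the maximal ideal has a left inverse -/
theorem exists_left_inv {m n : Type} [Fintype m] [Fintype n] [DecidableEq m] [DecidableEq n]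
    (B : Matrix m n G)
    (hB : ∀ x : n → G, (∀ i, B.mulVec x i ∈ maximalIdeal G) → ∀ j, x j ∈ maximalIdeal G) :
    ∃ L : Matrix n m G, L * B = 1 := by
  let k := ResidueField G
  let B' : Matrix m n k := B.map (residue G)
  have hinj : Function.Injective B'.mulVecLin := by
    rw [← LinearMap.ker_eq_bot, LinearMap.ker_eq_bot']
    intro y hy
    choose x hx using fun j => IsLocalRing.residue_surjective (y j)
    have h1 : ∀ i, B.mulVec x i ∈ maximalIdeal G := by
      intro i
      rw [← IsLocalRing.residue_eq_zero_iff]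
      have h2 := congrFun hy i
      rw [Matrix.mulVecLin_apply] at h2
      rw [← Pi.zero_apply (M := fun _ : m => k) i, ← h2, Matrix.mulVec, Matrix.mulVec, dotProduct,
        dotProduct, map_sum]
      refine Finset.sum_congr rfl fun j _ => ?_
      rw [map_mul, hx]
      rfl
    funext j
    rw [← hx j, Pi.zero_apply]
    exact (IsLocalRing.residue_eq_zero_iff _).2 (hB x h1 j)
  obtain ⟨g, hg⟩ := B'.mulVecLin.exists_leftInverse_of_injective (LinearMap.ker_eq_bot.2 hinj)
  have hL' : LinearMap.toMatrix' g * B' = 1 := by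
    have e1 : B' = LinearMap.toMatrix' B'.mulVecLin := (LinearMap.toMatrix'_toLin' B').symm
    conv_lhs => rw [e1]
    rw [← LinearMap.toMatrix'_comp, hg]
    exact LinearMap.toMatrix'_id
  choose L hL using fun i j => IsLocalRing.residue_surjective (LinearMap.toMatrix' g i j)
  let L₀ : Matrix n m G := Matrix.of L
  have h1 : (L₀ * B).map (residue G) = 1 := by
    rw [Matrix.map_mul]
    have : L₀.map (residue G) = LinearMap.toMatrix' g := by
      ext i j
      exact hL i j
    rw [this]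
    exact hL'
  have h2 : IsUnit (L₀ * B).det := by
    have h3 : residue G (L₀ * B).det = 1 := by
      rw [RingHom.map_det]
      change ((L₀ * B).map (residue G)).det = 1
      rw [h1, Matrix.det_one]
    by_contra hnu
    have h4 := (IsLocalRing.residue_eq_zero_iff _).2 ((IsLocalRing.mem_maximalIdeal _).2 hnu)
    rw [h3] at h4
    exact one_ne_zero h4
  refine ⟨(L₀ * B)⁻¹ * L₀, ?_⟩
  rw [Matrix.mul_assoc, Matrix.nonsing_inv_mul _ h2]

/-- a pair of matrices jointly injective modulo the maximal ideal -/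
theorem exists_left_inv₂ {m n : Type} [Fintype m] [Fintype n] [DecidableEq m] [DecidableEq n]
    (B₁ B₂ : Matrix m n G)
    (hB : ∀ x y : n → G, (∀ i, (B₁.mulVec x + B₂.mulVec y) i ∈ maximalIdeal G) →
      ∀ j, x j ∈ maximalIdeal G ∧ y j ∈ maximalIdeal G) :
    ∃ L₁ L₂ : Matrix n m G, L₁ * B₁ = 1 ∧ L₁ * B₂ = 0 ∧ L₂ * B₁ = 0 ∧ L₂ * B₂ = 1 := by
  obtain ⟨L, hL⟩ := exists_left_inv (Matrix.fromCols B₁ B₂) (fun x hx => by
    have h1 := hB (x ∘ Sum.inl) (x ∘ Sum.inr) (fun i => by
      have := hx i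
      rw [Matrix.fromCols_mulVec] at this
      exact this)
    rintro (j | j)
    · exact (h1 j).1
    · exact (h1 j).2)
  refine ⟨L.toRows₁, L.toRows₂, ?_⟩
  have h1 : Matrix.fromRows L.toRows₁ L.toRows₂ = L := Matrix.fromRows_toRows L
  rw [← h1, Matrix.fromRows_mul_fromCols, ← Matrix.fromBlocks_one] at hL
  obtain ⟨a, b, c, d⟩ := Matrix.fromBlocks_inj.1 hL
  exact ⟨a, b, c, d⟩

/-- a surjective pair of matrices has a right inverse -/
theorem exists_right_inv₂ {m n : Type} [Fintype m] [Fintype n] [DecidableEq m] [DecidableEq n]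
    (B₁ B₂ : Matrix n m G)
    (hB : ∀ x y : n → G, ∃ v, B₁.mulVec v = x ∧ B₂.mulVec v = y) :
    ∃ K₁ K₂ : Matrix m n G, B₁ * K₁ = 1 ∧ B₁ * K₂ = 0 ∧ B₂ * K₁ = 0 ∧ B₂ * K₂ = 1 := by
  choose v hv using fun j : n => hB (Pi.single j 1) 0
  choose w hw using fun j : n => hB 0 (Pi.single j 1)
  have key : ∀ (B : Matrix n m G) (v : n → m → G) (C : Matrix n n G),
      (∀ j, B.mulVec (v j) = fun i => C i j) → B * Matrix.of (fun i j => v j i) = C := by
    intro B v C h
    ext i j
    rw [Matrix.mul_apply]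
    exact congrFun (h j) i
  refine ⟨Matrix.of (fun i j => v j i), Matrix.of (fun i j => w j i), key _ _ _ fun j => ?_,
    key _ _ _ fun j => ?_, key _ _ _ fun j => ?_, key _ _ _ fun j => ?_⟩
  · rw [(hv j).1]
    funext i
    rw [Matrix.one_apply, Pi.single_apply]
  · rw [(hw j).1]
    rfl
  · rw [(hv j).2]
    rfl
  · rw [(hw j).2]
    funext i
    rw [Matrix.one_apply, Pi.single_apply]

end split

end Fermat.Agent.AsmL
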