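import Fermat.Agent.AsmL.MLv
import Fermat.Agent.ZG.Pt
import Fermat.Agent.E2N.Ctl2

/-!
# The data at a level, with the joint trace ring (cases I and II)
-/

set_option autoImplicit false
set_option linter.unusedSectionVars false
set_option linter.style.haveILetI false

open IsLocalRing
open Fermat.Agent.GalRep Fermat.Agent.Places Fermat.Agent.Cheb Fermat.Agent.TW Fermat.Agent.JT
open Fermat.Agent.StR Fermat.Agent.ZG Fermat.Agent.Sel Fermat.Agent.E2N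

namespace Fermat.Agent.AsmL

noncomputable section

local notation "Ω" => AlgebraicClosure ℚ

local notation "𝒢" => (AlgebraicClosure ℚ) ≃ₐ[ℚ] (AlgebraicClosure ℚ)

/-- control in coordinates -/
theorem Crd.aug {O G : Type} [CommRing O] [CommRing G] [Algebra O G] {r : ℕ} {δ : Fin r → G}
    {A : Type} [CommRing A] [Algebra O A] {γ : Fin r → A}
    {X : Type} [AddCommGroup X] [Module O X] {ac : A →ₐ[O] Module.End O X}
    (C : Crd (O := O) δ ac γ) {a : A}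
    (ha : ∀ x : X, ∃ z : Fin r → X, ∑ i, (ac (γ i) (z i) - z i) = ac a x) (i j : Fin C.d) :
    C.f a i j ∈ Ideal.span (Set.range fun k => δ k - 1) := by
  obtain ⟨x, hx⟩ := C.E.surjective (Pi.single j 1)
  obtain ⟨z, hz⟩ := ha x
  have h1 : C.f a i j = C.E (ac a x) i := by
    rw [C.hE, hx, Matrix.mulVec_single_one]
    rfl
  rw [h1, ← hz, map_sum, Finset.sum_apply]
  refine Ideal.sum_mem _ fun k _ => ?_
  rw [map_sub, C.E_γ, Pi.sub_apply, Pi.smul_apply, smul_eq_mul]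
  have h2 : δ k * C.E (z k) i - C.E (z k) i = (δ k - 1) * C.E (z k) i := by ring
  rw [h2]
  exact Ideal.mul_mem_right _ _ (Ideal.subset_span ⟨k, rfl⟩)

variable {O : Type} [CommRing O] [IsDomain O] [IsLocalRing O] [IsNoetherianRing O]
  [IsAdicComplete (maximalIdeal O) O] {p : ℕ} [hp : Fact p.Prime]
  {hpO : (p : O) ∈ maximalIdeal O} [Invertible (2 : O)]
  {ρb : GQ →* M2 (ResidueField O)} {g₀ k₀ : GQ} {hgk : HG.IrrAt (fun g => (ρb g).trace) g₀ k₀}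
  {ϖ : O} {r g t B : ℕ} {ty : Fin t → Ty} {q : Fin t → ℕ} {ε : Fin t → ℤ} {n : ℕ}
  {v : Fin r → ℕ} {Av : Fin r → ValuationSubring Ω} {m : Fin r → ℕ}

/-- maps injective modulo the maximal ideal are injective -/
theorem GMi.injective (hmax : maximalIdeal O = Ideal.span {ϖ}) {X X' : LM hpO hgk v Av m B}
    (f : GMi X X') : Function.Injective f.u := by
  rw [injective_iff_map_eq_zero]
  have key : ∀ n : ℕ, ∀ x, f.u x = 0 → x ∈ (maximalIdeal O) ^ n • (⊤ : Submodule O X.Y) := by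
    intro n
    induction n with
    | zero =>
      intro x _
      rw [pow_zero, Ideal.one_eq_top, Submodule.top_smul]
      trivial
    | succ n ih =>
      intro x hx
      have h1 := f.inj x (by rw [hx]; exact Submodule.zero_mem _)
      rw [hmax, Submodule.ideal_span_singleton_smul] at h1
      obtain ⟨y, -, hy⟩ := Submodule.mem_smul_pointwise_iff_exists _ _ _ |>.1 h1
      by_cases h0 : ϖ = 0
      · rw [← hy, h0, zero_smul]
        exact Submodule.zero_mem _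
      have h2 : f.u y = 0 := by
        rw [← hy, map_smul] at hx
        exact (smul_eq_zero.1 hx).resolve_left h0
      rw [← hy, pow_succ', mul_smul]
      refine Submodule.smul_mem_smul ?_ (ih y h2)
      rw [hmax]
      exact Ideal.mem_span_singleton_self _
  intro x hx
  have h1 := Ideal.iInf_pow_smul_eq_bot_of_isLocalRing (M := X.Y) (maximalIdeal O)
    (maximalIdeal.isMaximal O).ne_top
  have h2 : x ∈ (⨅ n : ℕ, (maximalIdeal O) ^ n • (⊤ : Submodule O X.Y)) := by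
    rw [Submodule.mem_iInf]
    exact fun n => key n x hx
  rw [h1] at h2
  exact h2

/-- the restriction maps of the trace rings -/
theorem GMi.exists_TT (hmax : maximalIdeal O = Ideal.span {ϖ}) {X X' : LM hpO hgk v Av m B}
    (f : GMi X X') : ∃ φ : X'.hg.TT →ₐ[O] X.hg.TT, (∀ g, φ (X'.hg.tt g) = X.hg.tt g) ∧
      ∀ g, (X'.hg.R hgk g).map φ = X.hg.R hgk g := by
  obtain ⟨φ, h1, -⟩ := exists_TT_of_inj X'.hg X.hg f.u (f.injective hmax) f.hu
  exact ⟨φ, h1, R_map X'.hg hgk X.hg φ h1⟩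


/-- control, in coordinates -/
theorem ctl_crd (XV : LM hpO hgk v Av m B) {A : Type} [CommRing A] [Algebra O A]
    {RA : GQ →* Matrix (Fin 2) (Fin 2) A} (π : A →ₐ[O] XV.hg.TT)
    (hR : ∀ g, (RA g).map (π : A →+* XV.hg.TT) = XV.hg.R hgk g)
    (LA : ∀ i, LocW p (v i) (Av i) RA) (a : A)
    (hctl : ∀ L : ∀ i, LocW p (v i) (Av i) (XV.hg.R hgk), ∀ y : XV.Y,
      (π a) • y ∈ augS XV.Y (fun i => (L i).η (L i).σ₀))
    (C : Crd (O := O) (GR.δ O fun i => p ^ m i) (acM XV.hg π) fun i => (LA i).η (LA i).σ₀)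
    (i j : Fin C.d) :
    C.f a i j ∈ Ideal.span (Set.range fun k => GR.δ O (fun i => p ^ m i) k - 1) := by
  refine C.aug (fun x => ?_) i j
  have h3 := augS_MQ XV.hg hgk _ (hctl fun i => LocW.map (LA i) (π : A →+* XV.hg.TT) hR) x
  obtain ⟨z, hz⟩ := (mem_augS _).1 h3
  refine ⟨z, ?_⟩
  rw [acM_apply, ← hz]
  refine Finset.sum_congr rfl fun i _ => ?_
  rw [acM_apply, LocW.map_eta, sub_smul, one_smul]
  rfl

section abs

variable {T' Y' : Type} [CommRing T'] [Algebra O T'] [AddCommGroup Y'] [Module O Y']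
  [Module.Finite O Y'] [Module.Free O Y'] [Nontrivial Y'] {S' : Set ℕ}
  {ψ' : T' →ₐ[O] Module.End O Y'} {θ' : T' →ₐ[O] ResidueField O} {ρ' : GQ →* Module.End O Y'}
  (hj : HG hpO S' (fun g => (ρb g).trace) ψ' θ' ρ')

include hgk in
/-- **RLev from a trace ring with a point.** -/
theorem exists_RLev_of (hmax : maximalIdeal O = Ideal.span {ϖ}) (hm : ∀ i, n ≤ m i)
    (XV : LM hpO hgk v Av m B) (XU : Fin t → LM hpO hgk v Av m B) (XM : LM hpO hgk v Av m B)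
    {Fr : Fin t → GQ} (I : ∀ j, IhQ (XU j) XV (q j) (Fr j)) (u : GMi XM XV)
    (φ₁ : hj.TT →ₐ[O] XV.hg.TT) (t1 : ∀ g, φ₁ (hj.tt g) = XV.hg.tt g)
    (g1 : ∀ g, (hj.R hgk g).map (φ₁ : hj.TT →+* XV.hg.TT) = XV.hg.R hgk g)
    {ρW : GQ →* M2 O} (φ₂ : hj.TT →ₐ[O] O)
    (g2 : ∀ g, (hj.R hgk g).map (φ₂ : hj.TT →+* O) = ρW g)
    (hreg : ∀ y : Y', (p : O) • y = 0 → y = 0)
    {Fv : Fin r → GQ} (hv : ∀ i, TWp p (fun g => (ρb g).trace) (v i) (Av i) (Fv i))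
    (hWv : ∀ i, ∀ σ ∈ (Av i).inertiaSubgroupIn ℚ, ρW σ = 1)
    {A₀ : ℕ → ValuationSubring Ω} {vv : Fin t → Fin 2 → O} {σ₀ : Fin t → GQ}
    {Qj : Fin t → Matrix (Fin 2) (Fin 2) hj.TT}
    (hred : redR (hj.R hgk) hj.theta.toRingHom = ρb)
    (h2k : (2 : ResidueField O) ≠ 0)
    (H : NmH hj hgk q ty ε A₀ Fr vv)
    (F : FrD hj hgk q ty A₀ Fr vv σ₀ Qj)
    (hMu : ∀ j, ∀ σ ∈ (A₀ (q j)).inertiaSubgroupIn ℚ, XM.hg.R hgk σ = 1)
    (hWt : ∀ j, (ρW (Fr j)).trace = ε j * (q j + 1))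
    (hWs : ∀ j, ∀ σ ∈ (A₀ (q j)).inertiaSubgroupIn ℚ,
      (ρW σ - 1) * (ρW (Fr j) - (ε j : O) • (1 : Matrix (Fin 2) (Fin 2) O)) = 0)
    (z : Fin g → hj.TT) (hz : ∀ i, z i ∈ maximalIdeal hj.TT)
    (hgen : maximalIdeal hj.TT ≤
      Ideal.span {algebraMap O hj.TT ϖ} ⊔ Ideal.span (Set.range z) ⊔
      Ideal.span (parS q ty ε (PhiJ hj hgk ty Fr vv Qj)
        (NJ hj hgk ty Fr vv σ₀ Qj)) ⊔ maximalIdeal hj.TT ^ 2)
    (a : hj.TT) {c : O} (ha : φ₂ a = c)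
    (hctl : ∀ L : ∀ i, LocW p (v i) (Av i) (XV.hg.R hgk), ∀ y : XV.Y,
      (φ₁ a) • y ∈ augS XV.Y (fun i => (L i).η (L i).σ₀)) :
    Nonempty (RLev O ϖ p r g t B ty q ε c n) := by
  -- the maps to the lower levels
  have eU : ∀ j, ∃ ψ : XV.hg.TT →ₐ[O] (XU j).hg.TT, (∀ g, ψ (XV.hg.tt g) = (XU j).hg.tt g) ∧
      ∀ g, (XV.hg.R hgk g).map ψ = (XU j).hg.R hgk g := fun j =>
    (I j).toIhD.gmi.exists_TT (hgk := hgk) hmax
  choose ψU hU1 hU2 using eU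
  obtain ⟨ψM, hM1, hM2⟩ := u.exists_TT hmax
  have hcU : ∀ j g, (hj.R hgk g).map ((ψU j).comp φ₁) = (XU j).hg.R hgk g := by
    intro j g
    rw [← hU2 j g, ← g1 g, Matrix.map_map]
    rfl
  have hcM : ∀ g, (hj.R hgk g).map (ψM.comp φ₁) = XM.hg.R hgk g := by
    intro g
    rw [← hM2 g, ← g1 g, Matrix.map_map]
    rfl
  -- the local data at the Taylor–Wiles primes
  have eL : ∀ i, Nonempty (LocW p (v i) (Av i) (hj.R hgk)) := fun i =>
    ⟨(hj.exists_locW hgk (hv i) hreg).choose⟩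
  have LA : ∀ i, LocW p (v i) (Av i) (hj.R hgk) := fun i => (eL i).some
  have resA : ∀ a : hj.TT, ∃ o : O, a - algebraMap O hj.TT o ∈ maximalIdeal hj.TT := fun a => by
    obtain ⟨o, ho⟩ := IsLocalRing.residue_surjective (hj.theta a)
    refine ⟨o, ?_⟩
    rw [← hj.theta_eq_zero, map_sub, AlgHom.commutes, sub_eq_zero]
    exact ho.symm
  have hNM : ∀ j a b, (ψM.comp φ₁) (NJ hj hgk ty Fr vv σ₀ Qj j a b) = 0 := fun j a b => by
    refine map_NJ (x := ((ψM.comp φ₁ : hj.TT →ₐ[O] XM.hg.TT) : hj.TT →+* XM.hg.TT)) ?_ a b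
    have h3 := hcM (σ₀ j)
    rw [hMu j (σ₀ j) (F.hσ j)] at h3
    exact h3
  have hxΦ : ∀ j, φ₂ (PhiJ hj hgk ty Fr vv Qj j).trace = ε j * (q j + 1) := fun j =>
    (map_trace_PhiJ (x := ((φ₂ : hj.TT →ₐ[O] O) : hj.TT →+* O)) F j (g2 (Fr j))).trans (hWt j)
  have hxN : ∀ j, (NJ hj hgk ty Fr vv σ₀ Qj j * (PhiJ hj hgk ty Fr vv Qj j -
      (ε j : hj.TT) • (1 : Matrix (Fin 2) (Fin 2) hj.TT))).map φ₂ = 0 := fun j => by
    refine map_rel_J (x := ((φ₂ : hj.TT →ₐ[O] O) : hj.TT →+* O)) F j (ε j) ?_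
    rw [g2, g2]
    exact hWs j (σ₀ j) (F.hσ j)
  have hxd : ∀ i, φ₂ ((LA i).η (LA i).σ₀) = 1 := fun i => by
    refine LocW.eta_eq_one (LA i) (φ₂ : hj.TT →+* O) ?_
    rw [g2]
    exact hWv i _ (LA i).mem
  have qd : ∀ j, QD (ty j) (q j) (ε j) (PhiJ hj hgk ty Fr vv Qj j)
      (NJ hj hgk ty Fr vv σ₀ Qj j) := fun j => H.qd F hred h2k j
  have htr : ∀ j, (PhiJ hj hgk ty Fr vv Qj j).trace = hj.tt (Fr j) := fun j => by
    rw [trace_PhiJ F j, hj.R_trace]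
  exact exists_RLev (hpO := hpO) (hgk := hgk) hm (A := hj.TT) resA hj.adjoin_tt LA XV XU
    XM φ₁ (fun j => (ψU j).comp φ₁) (ψM.comp φ₁) t1
    (fun j g => by rw [AlgHom.comp_apply, t1, hU1])
    (fun g => by rw [AlgHom.comp_apply, t1, hM1]) g1 hcU hcM Fr I u
    (PhiJ hj hgk ty Fr vv Qj) (NJ hj hgk ty Fr vv σ₀ Qj) qd htr hNM z hz hgen φ₂ hxΦ hxN hxd a
    (fun C => ctl_crd XV φ₁ g1 LA a hctl C) ha

end abs

end

end Fermat.Agent.AsmL
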