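import Fermat.Agent.AsmL.Map

/-!
# Bundled levels
-/

set_option autoImplicit false
set_option linter.unusedSectionVars false
set_option linter.style.haveILetI false

open IsLocalRing
open Fermat.Agent.GalRep Fermat.Agent.Places Fermat.Agent.Cheb Fermat.Agent.TW Fermat.Agent.JT

namespace Fermat.Agent.AsmL

noncomputable section

local notation "Ω" => AlgebraicClosure ℚ

set_option genInjectivity false in
set_option genSizeOf false in
/-- a bundled level -/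
structure LM {O : Type} [CommRing O] [IsLocalRing O] [IsNoetherianRing O]
    [IsAdicComplete (maximalIdeal O) O] {p : ℕ} [hp : Fact p.Prime]
    (hpO : (p : O) ∈ maximalIdeal O) [Invertible (2 : O)]
    {t : GQ → ResidueField O} {g₀ k₀ : GQ} (hgk : HG.IrrAt t g₀ k₀) {r : ℕ} (v : Fin r → ℕ)
    (A : Fin r → ValuationSubring Ω) (m : Fin r → ℕ) (B : ℕ) where
  T : Type
  Y : Type
  [crT : CommRing T]
  [algT : Algebra O T]
  [agY : AddCommGroup Y]
  [modY : Module O Y]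
  [finY : Module.Finite O Y]
  [freeY : Module.Free O Y]
  [ntY : Nontrivial Y]
  S : Set ℕ
  ψ : T →ₐ[O] Module.End O Y
  θ : T →ₐ[O] ResidueField O
  ρ : GQ →* Module.End O Y
  hg : HG hpO S t ψ θ ρ
  reg : ∀ y : Y, (p : O) • y = 0 → y = 0
  free : ∀ L : ∀ i, LocW p (v i) (A i) (hg.R hgk),
    ∃ (d : ℕ) (E : hg.MQ ≃ₗ[O] (Fin d → GR O fun i => p ^ m i))
      (f : hg.TT →ₐ[O] Matrix (Fin d) (Fin d) (GR O fun i => p ^ m i)), 0 < d ∧ 2 * d ≤ B ∧
      (∀ a m, E (a • m) = (f a).mulVec (E m)) ∧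
      ∀ i, f ((L i).η (L i).σ₀) = Matrix.scalar (Fin d) (GR.δ O (fun i => p ^ m i) i)

attribute [instance] LM.crT LM.algT LM.agY LM.modY LM.finY LM.freeY LM.ntY

section

variable {O : Type} [CommRing O] [IsLocalRing O] [IsNoetherianRing O]
  [IsAdicComplete (maximalIdeal O) O] {p : ℕ} [hp : Fact p.Prime]
  {hpO : (p : O) ∈ maximalIdeal O} [Invertible (2 : O)]
  {t : GQ → ResidueField O} {g₀ k₀ : GQ} {hgk : HG.IrrAt t g₀ k₀} {r : ℕ} {v : Fin r → ℕ}
  {Av : Fin r → ValuationSubring Ω} {m : Fin r → ℕ} {B : ℕ}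

/-- the bundled level of a Taylor–Wiles level -/
def LM.of {ι : AlgebraicClosure ℚ →+* ℂ} {N : ℕ} [NeZero N] {S : Set ℕ}
    {hNS : ∀ l, l.Prime → l ∣ N → l ∈ S} {θ : TS O S →ₐ[O] ResidueField O} {c : Fin r → ℕ}
    {e : TS O S} (X : Lev0 hpO ι hgk hNS θ v Av m c e B) : LM hpO hgk v Av m B :=
  letI := X.hH
  letI := X.nt
  letI := X.fr
  { T := TD O S N
    Y := YH (HQ X.hvN c) hNS e
    S := S
    ψ := psiY (HQ X.hvN c) hNS e
    θ := thetaD θ N
    ρ := rhoY hpO ι (HQ X.hvN c) hNS e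
    hg := X.hg
    reg := X.reg
    free := X.free }

variable {A : Type} [CommRing A] [Algebra O A] {RA : GQ →* Matrix (Fin 2) (Fin 2) A}

/-- coordinates at a level -/
theorem LM.exists_crd (X : LM hpO hgk v Av m B) (π : A →ₐ[O] X.hg.TT)
    (hπ : ∀ g, (RA g).map π = X.hg.R hgk g) (LA : ∀ i, LocW p (v i) (Av i) RA) :
    ∃ C : Crd (O := O) (GR.δ O fun i => p ^ m i) (acM X.hg π) (fun i => (LA i).η (LA i).σ₀),
      0 < C.d ∧ 2 * C.d ≤ B := by
  obtain ⟨d, E, f, hd, hdB, hE, hf⟩ := X.free fun i => LocW.map (LA i) (π : A →+* X.hg.TT) hπ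
  exact ⟨⟨d, E, f.comp π, fun a m => hE _ _, fun i => hf i⟩, hd, hdB⟩

/-- Galois equivariant maps of levels -/
structure GM (X X' : LM hpO hgk v Av m B) where
  u : X.Y →ₗ[O] X'.Y
  hu : ∀ g y, u (X.ρ g y) = X'.ρ g (u y)

/-- the matrix of a map -/
theorem GM.exists_mat {X X' : LM hpO hgk v Av m B} (u : GM X X') {tA : GQ → A}
    (hA : Algebra.adjoin O (Set.range tA) = ⊤)
    {π : A →ₐ[O] X.hg.TT} {π' : A →ₐ[O] X'.hg.TT} (h1 : ∀ g, π (tA g) = X.hg.tt g)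
    (h2 : ∀ g, π' (tA g) = X'.hg.tt g) {γ : Fin r → A}
    (C : Crd (O := O) (GR.δ O fun i => p ^ m i) (acM X.hg π) γ)
    (C' : Crd (O := O) (GR.δ O fun i => p ^ m i) (acM X'.hg π') γ) :
    ∃ M : Matrix (Fin C'.d) (Fin C.d) (GR O fun i => p ^ m i),
      (∀ x, C'.E (mq X.hg X'.hg u.u u.hu x) = M.mulVec (C.E x)) ∧
      ∀ a, C'.f a * M = M * C.f a :=
  C.exists_mat C' (adjoin_δ O _) _ fun a x =>
    mq_acM X.hg X'.hg hA π π' h1 h2 u.u u.hu a x

end

end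

end Fermat.Agent.AsmL
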