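import Fermat.Agent.AsmL.Mats
import Fermat.Agent.StR.Iface

/-!
# The data of the modularity lifting theorem at a level
-/

set_option autoImplicit false
set_option linter.unusedSectionVars false
set_option linter.style.haveILetI false

open IsLocalRing
open Fermat.Agent.GalRep Fermat.Agent.Places Fermat.Agent.Cheb Fermat.Agent.TW Fermat.Agent.JT
open Fermat.Agent.StR

namespace Fermat.Agent.AsmL

noncomputable section

local notation "Ω" => AlgebraicClosure ℚ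

variable {O : Type} [CommRing O] [IsLocalRing O] {ϖ : O} {p r g t B : ℕ} {ty : Fin t → Ty}
    {q : Fin t → ℕ} {ε : Fin t → ℤ} {n : ℕ}

/-- **The data at a level**, from coordinates. -/
def mkMLev {A : Type} [crA : CommRing A] [lrA : IsLocalRing A] [nrA : IsNoetherianRing A]
    [algA : Algebra O A] [finA : Module.Finite O A] [lhA : IsLocalHom (algebraMap O A)]
    (resA : ∀ a : A, ∃ o : O, a - algebraMap O A o ∈ maximalIdeal A)
    (m : Fin r → ℕ) (hm : ∀ i, n ≤ m i)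
    (Φ N : Fin t → Matrix (Fin 2) (Fin 2) A) (qd : ∀ j, QD (ty j) (q j) (ε j) (Φ j) (N j))
    (z : Fin g → A) (hz : ∀ i, z i ∈ maximalIdeal A)
    (hgen : maximalIdeal A ≤ Ideal.span {algebraMap O A ϖ} ⊔ Ideal.span (Set.range z) ⊔
      Ideal.span {x | ∃ j, x ∈ par (ty j) (q j) (ε j) (Φ j) (N j)} ⊔ maximalIdeal A ^ 2)
    {γ : Fin r → A} {MV : Type} [AddCommGroup MV] [Module O MV] {acV : A →ₐ[O] Module.End O MV}
    (CV : Crd (O := O) (GR.δ O fun i => p ^ m i) acV γ) (hdV : CV.d ≤ B)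
    {MU : Fin t → Type} [∀ j, AddCommGroup (MU j)] [∀ j, Module O (MU j)]
    {acU : ∀ j, A →ₐ[O] Module.End O (MU j)}
    (CU : ∀ j, Crd (O := O) (GR.δ O fun i => p ^ m i) (acU j) γ) (hdU : ∀ j, (CU j).d ≤ B)
    {MM : Type} [AddCommGroup MM] [Module O MM] {acM : A →ₐ[O] Module.End O MM}
    (CM : Crd (O := O) (GR.δ O fun i => p ^ m i) acM γ) (hdM : 0 < CM.d ∧ CM.d ≤ B)
    (I : ∀ j, IhM CV.f (CU j).f (q j) (Φ j).trace)
    (new : ∀ j, ∃ G1 G2 : Matrix (Fin (CU j).d) (Fin CV.d) (GR O fun i => p ^ m i),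
      CV.f (((Φ j).trace ^ 2 - ((q j : A) + 1) ^ 2) ^ 3) = (I j).i1 * G1 + (I j).i2 * G2)
    (j0 : Matrix (Fin CV.d) (Fin CM.d) (GR O fun i => p ^ m i))
    (hj0 : ∀ a, CV.f a * j0 = j0 * CM.f a)
    (l0 : Matrix (Fin CM.d) (Fin CV.d) (GR O fun i => p ^ m i)) (hl0 : l0 * j0 = 1)
    (hNM : ∀ j a b, CM.f (N j a b) = 0) : MLev O ϖ p r g t B ty q ε n where
  A := A
  resA := resA
  P := fun i => p ^ m i
  hP := fun i => ⟨m i, rfl, hm i⟩
  Φ := Φ
  N := N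
  qd := qd
  z := z
  hz := hz
  hgen := hgen
  d := CV.d
  hd := hdV
  f := CV.f
  dU := fun j => (CU j).d
  hdU := hdU
  fU := fun j => (CU j).f
  dM := CM.d
  hdM := hdM
  fM := CM.f
  i1 := fun j => (I j).i1
  i2 := fun j => (I j).i2
  hi1 := fun j => (I j).hi1
  hi2 := fun j => (I j).hi2
  l1 := fun j => (I j).l1
  l2 := fun j => (I j).l2
  hl := fun j => (I j).hl
  s1 := fun j => (I j).s1
  s2 := fun j => (I j).s2
  hs1 := fun j => (I j).hs1
  hs2 := fun j => (I j).hs2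
  k1 := fun j => (I j).k1
  k2 := fun j => (I j).k2
  hk := fun j => (I j).hk
  hsi := fun j => (I j).hsi
  new := new
  j0 := j0
  hj0 := hj0
  l0 := l0
  hl0 := hl0
  hNM := hNM
  dia := fun i => ⟨γ i, CV.hγ i, fun j => (CU j).hγ i, CM.hγ i⟩

section main

variable [IsNoetherianRing O]
  [IsAdicComplete (maximalIdeal O) O] [hp : Fact p.Prime]
  {hpO : (p : O) ∈ maximalIdeal O} [Invertible (2 : O)]
  {tr : GQ → ResidueField O} {g₀ k₀ : GQ} {hgk : HG.IrrAt tr g₀ k₀} {v : Fin r → ℕ}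
  {Av : Fin r → ValuationSubring Ω} {m : Fin r → ℕ}

/-- **The data with the point (cases I and II).** `A` = joint trace ring. -/
theorem exists_RLev (hm : ∀ i, n ≤ m i)
    {A : Type} [crA : CommRing A] [lrA : IsLocalRing A] [nrA : IsNoetherianRing A]
    [algA : Algebra O A] [finA : Module.Finite O A] [lhA : IsLocalHom (algebraMap O A)]
    (resA : ∀ a : A, ∃ o : O, a - algebraMap O A o ∈ maximalIdeal A)
    {tA : GQ → A} (hA : Algebra.adjoin O (Set.range tA) = ⊤)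
    {RA : GQ →* Matrix (Fin 2) (Fin 2) A} (LA : ∀ i, LocW p (v i) (Av i) RA)
    (XV : LM hpO hgk v Av m B) (XU : Fin t → LM hpO hgk v Av m B) (XM : LM hpO hgk v Av m B)
    (πV : A →ₐ[O] XV.hg.TT) (πU : ∀ j, A →ₐ[O] (XU j).hg.TT) (πM : A →ₐ[O] XM.hg.TT)
    (hV : ∀ g, πV (tA g) = XV.hg.tt g) (hU : ∀ j g, πU j (tA g) = (XU j).hg.tt g)
    (hM : ∀ g, πM (tA g) = XM.hg.tt g)
    (hVR : ∀ g, (RA g).map πV = XV.hg.R hgk g) (hUR : ∀ j g, (RA g).map (πU j) = (XU j).hg.R hgk g)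
    (hMR : ∀ g, (RA g).map πM = XM.hg.R hgk g)
    (Fr : Fin t → GQ) (I : ∀ j, IhQ (XU j) XV (q j) (Fr j)) (u : GMi XM XV)
    (Φ N : Fin t → Matrix (Fin 2) (Fin 2) A) (qd : ∀ j, QD (ty j) (q j) (ε j) (Φ j) (N j))
    (hΦ : ∀ j, (Φ j).trace = tA (Fr j)) (hNM : ∀ j a b, πM (N j a b) = 0)
    (z : Fin g → A) (hz : ∀ i, z i ∈ maximalIdeal A)
    (hgen : maximalIdeal A ≤ Ideal.span {algebraMap O A ϖ} ⊔ Ideal.span (Set.range z) ⊔
      Ideal.span {x | ∃ j, x ∈ par (ty j) (q j) (ε j) (Φ j) (N j)} ⊔ maximalIdeal A ^ 2)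
    (x : A →ₐ[O] O) (hxΦ : ∀ j, x (Φ j).trace = ε j * (q j + 1))
    (hxN : ∀ j, (N j * (Φ j - (ε j : A) • (1 : Matrix (Fin 2) (Fin 2) A))).map x = 0)
    (hxd : ∀ i, x ((LA i).η (LA i).σ₀) = 1) {c : O} (h : A)
    (hh : ∀ C : Crd (O := O) (GR.δ O fun i => p ^ m i) (acM XV.hg πV)
      (fun i => (LA i).η (LA i).σ₀), ∀ i j, C.f h i j ∈
        Ideal.span (Set.range fun i => GR.δ O (fun i => p ^ m i) i - 1))
    (hx : x h = c) : Nonempty (RLev O ϖ p r g t B ty q ε c n) := by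
  haveI : IsLocalRing (GR O fun i => p ^ m i) := GR.isLocalRing hpO fun i => ⟨m i, rfl⟩
  obtain ⟨CV, hdV0, hdV⟩ := XV.exists_crd πV hVR LA
  choose CU hdU0 hdU using fun j => (XU j).exists_crd (πU j) (hUR j) LA
  obtain ⟨CM, hdM0, hdM⟩ := XM.exists_crd πM hMR LA
  choose J G1 G2 hnew using fun j => (I j).exists_mats hA (hU j) hV (CU j) CV
  obtain ⟨j0, l0, hj0, hl0⟩ := u.exists_mats hA hM hV CM CV
  have e : ∀ j, tA (Fr j) = (Φ j).trace := fun j => (hΦ j).symm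
  let J' : ∀ j, IhM CV.f (CU j).f (q j) (Φ j).trace := fun j =>
    { J j with hsi := by rw [← e j]; exact (J j).hsi }
  refine ⟨{ mkMLev resA m hm Φ N qd z hz hgen CV (by omega) CU (fun j => by
      have := hdU j
      omega) CM ⟨hdM0, by omega⟩ J' (fun j => ⟨G1 j, G2 j,
        (congrArg (fun T : A => CV.f ((T ^ 2 - ((q j : A) + 1) ^ 2) ^ 3)) (e j).symm).trans
          (hnew j)⟩) j0 hj0 l0 hl0 (fun j a b => ?_) with
      x := x
      hxΦ := hxΦ
      hxN := hxN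
      hxdia := fun i => ⟨(LA i).η (LA i).σ₀, CV.hγ i, hxd i⟩
      h := h
      hh := hh CV
      hx := hx }⟩
  refine CM.ext_mulVec fun y => ?_
  rw [← CM.hE, Matrix.zero_mulVec]
  have h6 : acM XM.hg πM (N j a b) y = 0 := by
    rw [acM_apply, hNM, zero_smul]
  rw [h6, map_zero]

end main

end

end Fermat.Agent.AsmL
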