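import Fermat.Agent.AsmL.Coord
import Fermat.Agent.JT.PtY

/-!
# Equivariant maps between the multiplicity modules
-/

set_option autoImplicit false
set_option linter.unusedSectionVars false
set_option linter.style.haveILetI false

open IsLocalRing
open Fermat.Agent.GalRep Fermat.Agent.Places Fermat.Agent.Cheb Fermat.Agent.TW

namespace Fermat.Agent.AsmL

noncomputable section

variable {O T Y : Type} [CommRing O] [IsLocalRing O] [IsNoetherianRing O]
  [IsAdicComplete (maximalIdeal O) O] [CommRing T] [Algebra O T] [AddCommGroup Y] [Module O Y]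
  [Module.Finite O Y] [Module.Free O Y] [Nontrivial Y] {p : ℕ} [hp : Fact p.Prime]
  {hpO : (p : O) ∈ maximalIdeal O}
  {S : Set ℕ} {t : GQ → ResidueField O} {ψ : T →ₐ[O] Module.End O Y}
  {θ : T →ₐ[O] ResidueField O} {ρ : GQ →* Module.End O Y} (h : HG hpO S t ψ θ ρ)
  [Invertible (2 : O)]

/-- the inclusion of the multiplicity module -/
def inM : h.MQ →ₗ[O] Y :=
  ((MM h.rho complexConjugation).subtype).restrictScalars O

theorem inM_injective : Function.Injective (inM h) := Subtype.val_injective

theorem inM_smul (a : h.TT) (m : h.MQ) : inM h (a • m) = a • inM h m := rfl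

theorem E1_apply (y : Y) : E1 (T := h.TT) h.rho complexConjugation y =
    (⅟2 : O) • (y + ρ complexConjugation y) := by
  rw [E1, LinearMap.smul_apply, LinearMap.add_apply, Module.End.one_apply, HG.rho_apply,
    ← algebraMap_smul h.TT (⅟2 : O)]
  congr 1

theorem half_add_self (y : Y) : (⅟2 : O) • (y + y) = y := by
  rw [← two_smul O y, smul_smul, invOf_mul_self, one_smul]

theorem conj_conj (y : Y) : ρ complexConjugation (ρ complexConjugation y) = y := by
  rw [← Module.End.mul_apply, ← map_mul, complexConjugation_mul_self, map_one,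
    Module.End.one_apply]

theorem rho_inM (m : h.MQ) : ρ complexConjugation (inM h m) = inM h m := by
  obtain ⟨y, hy⟩ := m.2
  have h1 : inM h m = (⅟2 : O) • (y + ρ complexConjugation y) := by
    rw [← E1_apply h, hy]
    rfl
  rw [h1, map_smul, map_add, conj_conj, add_comm]

theorem exists_inM {y : Y} (hy : ρ complexConjugation y = y) : ∃ m, inM h m = y :=
  ⟨⟨y, ⟨y, by rw [E1_apply, hy, half_add_self]⟩⟩, rfl⟩

/-- the projection to the multiplicity module -/
theorem exists_proj (y : Y) : ∃ m, inM h m = (⅟2 : O) • (y + ρ complexConjugation y) :=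
  exists_inM h (by rw [map_smul, map_add, conj_conj, add_comm])

theorem mem_smul_inM (I : Ideal O) {m : h.MQ} (hm : inM h m ∈ I • (⊤ : Submodule O Y)) :
    m ∈ I • (⊤ : Submodule O h.MQ) := by
  choose P hP using exists_proj h
  let F : Y →ₗ[O] h.MQ :=
    { toFun := P
      map_add' := fun x y => inM_injective h (by
        rw [map_add, hP, hP, hP, map_add, ← smul_add]
        congr 1
        abel)
      map_smul' := fun a y => inM_injective h (by
        rw [RingHom.id_apply, map_smul, hP, hP, map_smul, ← smul_add, smul_comm]) }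
  have h1 : F (inM h m) = m := inM_injective h (by
    change inM h (P (inM h m)) = _
    rw [hP, rho_inM, half_add_self])
  rw [← h1]
  exact Submodule.smul_top_le_comap_smul_top I F hm

theorem inM_mem_smul (I : Ideal O) {m : h.MQ} (hm : m ∈ I • (⊤ : Submodule O h.MQ)) :
    inM h m ∈ I • (⊤ : Submodule O Y) :=
  Submodule.smul_top_le_comap_smul_top I (inM h) hm

section maps

variable {T' Y' : Type} [CommRing T'] [Algebra O T'] [AddCommGroup Y'] [Module O Y']
  [Module.Finite O Y'] [Module.Free O Y'] [Nontrivial Y'] {S' : Set ℕ}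
  {t' : GQ → ResidueField O} {ψ' : T' →ₐ[O] Module.End O Y'}
  {θ' : T' →ₐ[O] ResidueField O} {ρ' : GQ →* Module.End O Y'} (h' : HG hpO S' t' ψ' θ' ρ')

/-- the map between the multiplicity modules -/
def mq (u : Y →ₗ[O] Y') (hu : ∀ g y, u (ρ g y) = ρ' g (u y)) : h.MQ →ₗ[O] h'.MQ where
  toFun m := ⟨u (inM h m), ⟨u (inM h m), by
    rw [E1_apply, ← hu, rho_inM, half_add_self]⟩⟩
  map_add' x y := inM_injective h' (by
    change u (inM h (x + y)) = u (inM h x) + u (inM h y)
    rw [map_add, map_add])
  map_smul' a x := inM_injective h' (by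
    change u (inM h (a • x)) = a • u (inM h x)
    rw [map_smul, map_smul])

theorem inM_mq (u : Y →ₗ[O] Y') (hu : ∀ g y, u (ρ g y) = ρ' g (u y)) (m : h.MQ) :
    inM h' (mq h h' u hu m) = u (inM h m) := rfl

variable {A : Type} [CommRing A] [Algebra O A]

/-- the action of `A` on the multiplicity module -/
def acM (π : A →ₐ[O] h.TT) : A →ₐ[O] Module.End O h.MQ :=
  AlgHom.ofLinearMap
    { toFun := fun a =>
        { toFun := fun m => π a • m
          map_add' := fun x y => smul_add _ _ _
          map_smul' := fun c x => smul_comm _ _ _ }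
      map_add' := fun a b => LinearMap.ext fun m => by
        change π (a + b) • m = π a • m + π b • m
        rw [map_add, add_smul]
      map_smul' := fun c a => LinearMap.ext fun m => by
        change π (c • a) • m = c • (π a • m)
        rw [map_smul, smul_assoc] }
    (LinearMap.ext fun m => by
      change π 1 • m = m
      rw [map_one, one_smul])
    (fun a b => LinearMap.ext fun m => by
      change π (a * b) • m = π a • (π b • m)
      rw [map_mul, mul_smul])

theorem acM_apply (π : A →ₐ[O] h.TT) (a : A) (m : h.MQ) : acM h π a m = π a • m := rfl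

/-- Galois equivariant maps are equivariant for the trace ring -/
theorem smul_of_gal {tA : GQ → A} (hA : Algebra.adjoin O (Set.range tA) = ⊤)
    (π : A →ₐ[O] h.TT) (π' : A →ₐ[O] h'.TT) (h1 : ∀ g, π (tA g) = h.tt g)
    (h2 : ∀ g, π' (tA g) = h'.tt g) (u : Y →ₗ[O] Y') (hu : ∀ g y, u (ρ g y) = ρ' g (u y))
    (a : A) (y : Y) : u (π a • y) = π' a • u y := by
  have ha : a ∈ Algebra.adjoin O (Set.range tA) := hA ▸ trivial
  induction ha using Algebra.adjoin_induction generalizing y with
  | mem a ha =>
    obtain ⟨g, rfl⟩ := ha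
    rw [h1, h2, HG.tt_smul, HG.tt_smul, map_add, map_smul, hu, hu]
  | algebraMap o =>
    rw [AlgHom.commutes, AlgHom.commutes, algebraMap_smul, algebraMap_smul, map_smul]
  | add a b _ _ h1 h2 =>
    rw [map_add, map_add, add_smul, add_smul, map_add, h1, h2]
  | mul a b _ _ h1 h2 =>
    rw [map_mul, map_mul, mul_smul, mul_smul, h1, h2]

theorem mq_acM {tA : GQ → A} (hA : Algebra.adjoin O (Set.range tA) = ⊤)
    (π : A →ₐ[O] h.TT) (π' : A →ₐ[O] h'.TT) (h1 : ∀ g, π (tA g) = h.tt g)
    (h2 : ∀ g, π' (tA g) = h'.tt g) (u : Y →ₗ[O] Y') (hu : ∀ g y, u (ρ g y) = ρ' g (u y))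
    (a : A) (m : h.MQ) : mq h h' u hu (acM h π a m) = acM h' π' a (mq h h' u hu m) :=
  inM_injective h' (by
    rw [inM_mq, acM_apply, acM_apply, inM_smul, inM_smul,
      smul_of_gal h h' hA π π' h1 h2 u hu, inM_mq])

end maps

end

end Fermat.Agent.AsmL
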