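import Fermat.Agent.AsmL.Coord

/-!
# The socle of the group ring
-/

set_option autoImplicit false
set_option linter.unusedSectionVars false
set_option linter.style.haveILetI false

noncomputable section

namespace Fermat.Agent.AsmL

open Matrix IsLocalRing Fermat.Agent.TW

variable {O : Type} [CommRing O] {r : ℕ} (P : Fin r → ℕ) [hP : ∀ i, NeZero (P i)]

/-- the group -/
abbrev Gam : Type := ∀ i, Multiplicative (ZMod (P i))

instance : Fintype (Gam P) := Pi.instFintype

theorem δ_pow_val (i : Fin r) (n : ℕ) : GR.δ O P i ^ (n : ZMod (P i)).val = GR.δ O P i ^ n := by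
  rw [ZMod.val_natCast]
  conv_rhs => rw [← Nat.div_add_mod n (P i), pow_add, pow_mul, GR.δ_pow, one_pow, one_mul]

variable (O) in
/-- the character of the group with values in the group ring -/
def chi : Gam P →* GR O P where
  toFun g := ∏ i, GR.δ O P i ^ (Multiplicative.toAdd (g i)).val
  map_one' := by
    refine Finset.prod_eq_one fun i _ => ?_
    rw [Pi.one_apply, toAdd_one, ZMod.val_zero, pow_zero]
  map_mul' g h := by
    rw [← Finset.prod_mul_distrib]
    refine Finset.prod_congr rfl fun i _ => ?_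
    rw [Pi.mul_apply, toAdd_mul, ← pow_add]
    have h1 := δ_pow_val (O := O) P i
      ((Multiplicative.toAdd (g i)).val + (Multiplicative.toAdd (h i)).val)
    rw [Nat.cast_add, ZMod.natCast_zmod_val, ZMod.natCast_zmod_val] at h1
    exact h1

theorem chi_single (i : Fin r) :
    chi O P (Pi.mulSingle i (Multiplicative.ofAdd (1 : ZMod (P i)))) = GR.δ O P i := by
  change ∏ j, GR.δ O P j ^ (Multiplicative.toAdd
    ((Pi.mulSingle i (Multiplicative.ofAdd (1 : ZMod (P i))) : Gam P) j)).val = _
  rw [Finset.prod_eq_single i]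
  · rw [Pi.mulSingle_eq_same, toAdd_ofAdd]
    have h1 := δ_pow_val (O := O) P i 1
    rw [Nat.cast_one, pow_one] at h1
    exact h1
  · intro j _ hj
    rw [Pi.mulSingle_eq_of_ne hj, toAdd_one, ZMod.val_zero, pow_zero]
  · intro h
    exact absurd (Finset.mem_univ i) h

variable (O) in
/-- the comparison with the group algebra -/
def toMA (k : Type) [CommRing k] [Algebra O k] : GR O P →ₐ[O] MonoidAlgebra k (Gam P) :=
  GR.lift (fun i => MonoidAlgebra.of k (Gam P)
    (Pi.mulSingle i (Multiplicative.ofAdd (1 : ZMod (P i))))) fun i => by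
      have h1 : (Multiplicative.ofAdd (1 : ZMod (P i))) ^ P i = 1 := by
        rw [← ofAdd_nsmul, nsmul_eq_mul, mul_one, ZMod.natCast_self, ofAdd_zero]
      have h2 : (Pi.mulSingle i (Multiplicative.ofAdd (1 : ZMod (P i))) : Gam P) ^ P i = 1 := by
        rw [← Pi.mulSingle_pow, h1, Pi.mulSingle_one]
      rw [← map_pow, h2, map_one]

theorem toMA_chi (k : Type) [CommRing k] [Algebra O k] (g : Gam P) :
    toMA O P k (chi O P g) = MonoidAlgebra.of k (Gam P) g := by
  change toMA O P k (∏ i, GR.δ O P i ^ (Multiplicative.toAdd (g i)).val) = _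
  rw [map_prod]
  have h1 : g = ∏ i, Pi.mulSingle i (g i) := (Finset.univ_prod_mulSingle g).symm
  conv_rhs => rw [h1, map_prod]
  refine Finset.prod_congr rfl fun i _ => ?_
  rw [map_pow]
  have h2 : toMA O P k (GR.δ O P i) = MonoidAlgebra.of k (Gam P)
    (Pi.mulSingle i (Multiplicative.ofAdd (1 : ZMod (P i)))) := GR.lift_δ _ _ i
  have h3 : (Multiplicative.ofAdd (1 : ZMod (P i))) ^ (Multiplicative.toAdd (g i)).val = g i := by
    rw [← ofAdd_nsmul, nsmul_eq_mul, mul_one, ZMod.natCast_zmod_val]
    rfl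
  have h4 : (Pi.mulSingle i (Multiplicative.ofAdd (1 : ZMod (P i))) : Gam P) ^
      (Multiplicative.toAdd (g i)).val = Pi.mulSingle i (g i) := by
    rw [← Pi.mulSingle_pow, h3]
  rw [h2, ← map_pow, h4]

variable (O) in
/-- the generator of the socle -/
def soc : GR O P := ∑ g, chi O P g

theorem soc_mul_chi (h : Gam P) : soc O P * chi O P h = soc O P := by
  rw [soc, Finset.sum_mul]
  refine (Finset.sum_congr rfl fun g _ => (map_mul (chi O P) g h).symm).trans ?_
  exact Fintype.sum_equiv (Equiv.mulRight h) _ _ fun g => rfl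

theorem soc_mul_δ (i : Fin r) : soc O P * (GR.δ O P i - 1) = 0 := by
  rw [mul_sub, mul_one, ← chi_single, soc_mul_chi, sub_self]

variable [IsLocalRing O]

theorem soc_not_mem : soc O P ∉ (maximalIdeal O).map (algebraMap O (GR O P)) := by
  classical
  intro hmem
  let k := ResidueField O
  have h1 : (maximalIdeal O).map (algebraMap O (GR O P)) ≤ RingHom.ker (toMA O P k) := by
    rw [Ideal.map_le_iff_le_comap]
    intro a ha
    rw [Ideal.mem_comap, RingHom.mem_ker, AlgHom.commutes]
    have h3 : (algebraMap O (MonoidAlgebra k (Gam P))) a =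
      MonoidAlgebra.single 1 (algebraMap O k a) := rfl
    rw [h3]
    have h4 : algebraMap O k a = 0 := (IsLocalRing.residue_eq_zero_iff a).2 ha
    rw [h4, MonoidAlgebra.single_zero]
  have h2 : toMA O P k (soc O P) = 0 := h1 hmem
  have h3 : (toMA O P k (soc O P)).coeff (1 : Gam P) = 1 := by
    rw [soc, map_sum, MonoidAlgebra.coeff_sum, Finsupp.finsetSum_apply,
      Finset.sum_eq_single (1 : Gam P)]
    · rw [toMA_chi, MonoidAlgebra.of_apply, MonoidAlgebra.coeff_single, Finsupp.single_eq_same]
    · intro g _ hg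
      rw [toMA_chi, MonoidAlgebra.of_apply, MonoidAlgebra.coeff_single,
        Finsupp.single_eq_of_ne (Ne.symm hg)]
    · intro h
      exact absurd (Finset.mem_univ _) h
  rw [h2, MonoidAlgebra.coeff_zero, Finsupp.zero_apply] at h3
  exact zero_ne_one h3

variable {p : ℕ} [hp : Fact p.Prime] (hpO : (p : O) ∈ maximalIdeal O)

/-- membership in the maximal ideal through the socle -/
theorem mem_of_soc [IsLocalRing (GR O P)] {x : GR O P}
    (hx : soc O P * x ∈ (maximalIdeal O).map (algebraMap O (GR O P))) :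
    x ∈ maximalIdeal (GR O P) := by
  rw [IsLocalRing.mem_maximalIdeal]
  intro hu
  obtain ⟨y, hy⟩ := hu.exists_right_inv
  apply soc_not_mem (O := O) P
  have h1 : soc O P = soc O P * x * y := by rw [mul_assoc, hy, mul_one]
  rw [h1]
  exact Ideal.mul_mem_right _ _ hx

include hpO in
/-- the socle multiplies the maximal ideal into `𝔪_O` -/
theorem soc_mul_mem [IsLocalRing (GR O P)] (hP' : ∀ i, ∃ m, P i = p ^ m) {x : GR O P}
    (hx : x ∈ maximalIdeal (GR O P)) :
    soc O P * x ∈ (maximalIdeal O).map (algebraMap O (GR O P)) := by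
  have h1 := GR.sub_aug_mem x
  have h2 : soc O P * (x - algebraMap O (GR O P) (GR.aug O x)) = 0 := by
    refine Submodule.span_induction (p := fun y _ => soc O P * y = 0) ?_ ?_ ?_ ?_ h1
    · rintro _ ⟨i, rfl⟩
      exact soc_mul_δ P i
    · exact mul_zero _
    · intro a b _ _ ha hb
      rw [mul_add, ha, hb, add_zero]
    · intro a b _ hb
      rw [smul_eq_mul, mul_left_comm, hb, mul_zero]
  rw [mul_sub, sub_eq_zero] at h2
  rw [h2]
  refine Ideal.mul_mem_left _ _ (Ideal.mem_map_of_mem _ ?_)
  have h3 : algebraMap O (GR O P) (GR.aug O x) ∈ maximalIdeal (GR O P) := by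
    have h4 : Ideal.span (Set.range fun i => GR.δ O P i - 1) ≤ maximalIdeal (GR O P) := by
      rw [Ideal.span_le]
      rintro _ ⟨i, rfl⟩
      exact GR.δ1 hpO hP' i
    have h5 := Ideal.sub_mem _ hx (h4 h1)
    rwa [sub_sub_cancel] at h5
  rw [IsLocalRing.mem_maximalIdeal] at h3 ⊢
  exact fun hu => h3 (hu.map _)

end Fermat.Agent.AsmL
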