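import Fermat.Agent.AsmL.Ihd
import Fermat.Agent.AsmL.Socle
import Fermat.Agent.E2N.New

/-!
# The matrices of the degeneracy maps
-/

set_option autoImplicit false
set_option linter.unusedSectionVars false
set_option linter.style.haveILetI false

open IsLocalRing
open Fermat.Agent.GalRep Fermat.Agent.Places Fermat.Agent.Cheb Fermat.Agent.TW Fermat.Agent.JT

namespace Fermat.Agent.AsmL

noncomputable section

local notation "Ω" => AlgebraicClosure ℚ

section coord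

variable {O : Type} [CommRing O] [IsLocalRing O] {p : ℕ} [hp : Fact p.Prime]
  (hpO : (p : O) ∈ maximalIdeal O) {r : ℕ} {m : Fin r → ℕ}

/-- coordinates of `𝔪_O`-multiples -/
theorem mem_coord {X : Type} [AddCommGroup X] [Module O X] {G : Type} [CommRing G] [Algebra O G]
    {d : ℕ} (E : X ≃ₗ[O] (Fin d → G)) (x : X) : x ∈ maximalIdeal O • (⊤ : Submodule O X) ↔
      ∀ i, E x i ∈ (maximalIdeal O).map (algebraMap O G) := by
  constructor
  · intro hx i
    have h1 := Submodule.smul_top_le_comap_smul_top (maximalIdeal O)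
      ((LinearMap.proj i : (Fin d → G) →ₗ[O] G) ∘ₗ E.toLinearMap) hx
    rw [Submodule.mem_comap, Ideal.smul_top_eq_map] at h1
    exact h1
  · intro h
    have h1 : x = ∑ i, E.symm (Pi.single i (E x i)) := by
      apply E.injective
      rw [map_sum]
      simp only [LinearEquiv.apply_symm_apply]
      exact (Finset.univ_sum_single (E x)).symm
    rw [h1]
    refine Submodule.sum_mem _ fun i _ => ?_
    have h2 : E x i ∈ maximalIdeal O • (⊤ : Submodule O G) := by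
      rw [Ideal.smul_top_eq_map]
      exact h i
    exact Submodule.smul_top_le_comap_smul_top (maximalIdeal O)
      (E.symm.toLinearMap ∘ₗ (LinearMap.single O (fun _ : Fin d => G) i)) h2

local notation "G" => GR O (fun i => p ^ m i)

include hpO in
/-- injectivity modulo `𝔪_O` implies injectivity modulo the maximal ideal of the group ring -/
theorem inj_max [IsLocalRing G] {κ ι' : Type} [Fintype κ] [Fintype ι']
    (B₁ B₂ : Matrix ι' κ G)
    (hB : ∀ x y : κ → G, (∀ i, (B₁.mulVec x + B₂.mulVec y) i ∈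
        (maximalIdeal O).map (algebraMap O G)) →
      ∀ j, x j ∈ (maximalIdeal O).map (algebraMap O G) ∧
        y j ∈ (maximalIdeal O).map (algebraMap O G))
    (x y : κ → G) (h : ∀ i, (B₁.mulVec x + B₂.mulVec y) i ∈ maximalIdeal G) (j : κ) :
    x j ∈ maximalIdeal G ∧ y j ∈ maximalIdeal G := by
  haveI : ∀ i, NeZero (p ^ m i) := fun i => ⟨pow_ne_zero _ hp.out.ne_zero⟩
  set s := soc O (fun i => p ^ m i) with hs
  have h1 := hB (s • x) (s • y) (fun i => by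
    rw [Matrix.mulVec_smul, Matrix.mulVec_smul, ← smul_add, Pi.smul_apply, smul_eq_mul]
    exact soc_mul_mem (fun i => p ^ m i) hpO (fun i => ⟨m i, rfl⟩) (h i)) j
  exact ⟨mem_of_soc _ h1.1, mem_of_soc _ h1.2⟩

include hpO in
/-- the same for one matrix -/
theorem inj_max₁ [IsLocalRing G] {κ ι' : Type} [Fintype κ] [Fintype ι']
    (B₁ : Matrix ι' κ G)
    (hB : ∀ x : κ → G, (∀ i, B₁.mulVec x i ∈ (maximalIdeal O).map (algebraMap O G)) →
      ∀ j, x j ∈ (maximalIdeal O).map (algebraMap O G))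
    (x : κ → G) (h : ∀ i, B₁.mulVec x i ∈ maximalIdeal G) (j : κ) : x j ∈ maximalIdeal G := by
  haveI : ∀ i, NeZero (p ^ m i) := fun i => ⟨pow_ne_zero _ hp.out.ne_zero⟩
  set s := soc O (fun i => p ^ m i) with hs
  have h1 := hB (s • x) (fun i => by
    rw [Matrix.mulVec_smul, Pi.smul_apply, smul_eq_mul]
    exact soc_mul_mem (fun i => p ^ m i) hpO (fun i => ⟨m i, rfl⟩) (h i)) j
  exact mem_of_soc _ h1

end coord

variable {O : Type} [CommRing O] [IsLocalRing O] [IsNoetherianRing O]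
  [IsAdicComplete (maximalIdeal O) O] {p : ℕ} [hp : Fact p.Prime]
  {hpO : (p : O) ∈ maximalIdeal O} [Invertible (2 : O)]
  {t : GQ → ResidueField O} {g₀ k₀ : GQ} {hgk : HG.IrrAt t g₀ k₀} {r : ℕ} {v : Fin r → ℕ}
  {Av : Fin r → ValuationSubring Ω} {m : Fin r → ℕ} {B : ℕ}
  {A : Type} [CommRing A] [Algebra O A] {tA : GQ → A} (hA : Algebra.adjoin O (Set.range tA) = ⊤)
  {γ : Fin r → A}

set_option genInjectivity false in
set_option genSizeOf false in
/-- the matrices of the degeneracy maps -/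
structure IhM {O G : Type} [CommRing O] [CommRing G] [Algebra O G] {A : Type} [CommRing A]
    [Algebra O A] {d dU : ℕ} (f : A →ₐ[O] Matrix (Fin d) (Fin d) G)
    (fU : A →ₐ[O] Matrix (Fin dU) (Fin dU) G) (q : ℕ) (T : A) where
  i1 : Matrix (Fin d) (Fin dU) G
  i2 : Matrix (Fin d) (Fin dU) G
  hi1 : ∀ a, f a * i1 = i1 * fU a
  hi2 : ∀ a, f a * i2 = i2 * fU a
  l1 : Matrix (Fin dU) (Fin d) G
  l2 : Matrix (Fin dU) (Fin d) G
  hl : l1 * i1 = 1 ∧ l1 * i2 = 0 ∧ l2 * i1 = 0 ∧ l2 * i2 = 1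
  s1 : Matrix (Fin dU) (Fin d) G
  s2 : Matrix (Fin dU) (Fin d) G
  hs1 : ∀ a, fU a * s1 = s1 * f a
  hs2 : ∀ a, fU a * s2 = s2 * f a
  k1 : Matrix (Fin d) (Fin dU) G
  k2 : Matrix (Fin d) (Fin dU) G
  hk : s1 * k1 = 1 ∧ s1 * k2 = 0 ∧ s2 * k1 = 0 ∧ s2 * k2 = 1
  hsi : s1 * i1 = fU (q + 1) ∧ s1 * i2 = fU T ∧ s2 * i1 = fU T ∧ s2 * i2 = fU (q + 1)

section

variable {XU XV : LM hpO hgk v Av m B} {πU : A →ₐ[O] XU.hg.TT} {πV : A →ₐ[O] XV.hg.TT}
  (hU : ∀ g, πU (tA g) = XU.hg.tt g) (hV : ∀ g, πV (tA g) = XV.hg.tt g)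
  (CU : Crd (O := O) (GR.δ O fun i => p ^ m i) (acM XU.hg πU) γ)
  (CV : Crd (O := O) (GR.δ O fun i => p ^ m i) (acM XV.hg πV) γ)

include hA hU hV in
theorem IhD.exists_mats [IsLocalRing (GR O fun i => p ^ m i)] {q : ℕ} {T : XU.hg.TT}
    (I : IhD XU XV q T) {TA : A} (hT : πU TA = T) :
    ∃ M : IhM CV.f CU.f q TA,
      (∀ x, CU.E (mq XV.hg XU.hg I.s1.u I.s1.hu x) = M.s1.mulVec (CV.E x)) ∧
      (∀ x, CU.E (mq XV.hg XU.hg I.s2.u I.s2.hu x) = M.s2.mulVec (CV.E x)) := by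
  obtain ⟨i1, hi1, hi1'⟩ := I.i1.exists_mat hA hU hV CU CV
  obtain ⟨i2, hi2, hi2'⟩ := I.i2.exists_mat hA hU hV CU CV
  obtain ⟨s1, hs1, hs1'⟩ := I.s1.exists_mat hA hV hU CV CU
  obtain ⟨s2, hs2, hs2'⟩ := I.s2.exists_mat hA hV hU CV CU
  -- left inverses
  obtain ⟨l1, l2, hl⟩ := exists_left_inv₂ i1 i2 (inj_max hpO i1 i2 fun x y hxy => by
    obtain ⟨x', rfl⟩ := CU.E.surjective x
    obtain ⟨y', rfl⟩ := CU.E.surjective y
    have h1 : mq XU.hg XV.hg I.i1.u I.i1.hu x' + mq XU.hg XV.hg I.i2.u I.i2.hu y' ∈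
        maximalIdeal O • (⊤ : Submodule O XV.hg.MQ) := by
      rw [mem_coord CV.E]
      intro i
      rw [map_add, hi1, hi2]
      exact hxy i
    have h2 := inM_mem_smul XV.hg _ h1
    rw [map_add, inM_mq, inM_mq] at h2
    have h3 := I.inj _ _ h2
    have h4 := (mem_coord CU.E x').1 (mem_smul_inM XU.hg _ h3.1)
    have h5 := (mem_coord CU.E y').1 (mem_smul_inM XU.hg _ h3.2)
    exact fun j => ⟨h4 j, h5 j⟩)
  -- right inverses
  obtain ⟨k1, k2, hk⟩ := exists_right_inv₂ s1 s2 (fun x y => by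
    obtain ⟨x', rfl⟩ := CU.E.surjective x
    obtain ⟨y', rfl⟩ := CU.E.surjective y
    obtain ⟨w, hw1, hw2⟩ := I.surj (inM XU.hg x') (inM XU.hg y')
    obtain ⟨w', hw'⟩ := exists_proj XV.hg w
    refine ⟨CV.E w', ?_, ?_⟩
    · rw [← hs1]
      congr 1
      apply inM_injective
      rw [inM_mq, hw', map_smul, map_add, I.s1.hu, hw1, rho_inM, half_add_self]
    · rw [← hs2]
      congr 1
      apply inM_injective
      rw [inM_mq, hw', map_smul, map_add, I.s2.hu, hw2, rho_inM, half_add_self])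
  have hq : ∀ x : XU.hg.MQ, acM XU.hg πU ((q : A) + 1) x = ((q : O) + 1) • x := by
    intro x
    rw [acM_apply, map_add, map_natCast, map_one, ← algebraMap_smul XU.hg.TT ((q : O) + 1) x,
      map_add, map_natCast, map_one]
  have hTx : ∀ x : XU.hg.MQ, inM XU.hg (acM XU.hg πU TA x) = T • inM XU.hg x := by
    intro x
    rw [acM_apply, hT, inM_smul]
  refine ⟨{ i1 := i1, i2 := i2, hi1 := hi1', hi2 := hi2', l1 := l1, l2 := l2, hl := hl, s1 := s1,
            s2 := s2, hs1 := hs1', hs2 := hs2', k1 := k1, k2 := k2, hk := hk,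
            hsi := ⟨?_, ?_, ?_, ?_⟩ }, hs1, hs2⟩
  · refine CU.ext_mulVec fun x => ?_
    rw [← Matrix.mulVec_mulVec, ← hi1, ← hs1, ← CU.hE, hq]
    congr 1
    apply inM_injective
    rw [inM_mq, inM_mq, I.s11, map_smul]
  · refine CU.ext_mulVec fun x => ?_
    rw [← Matrix.mulVec_mulVec, ← hi2, ← hs1, ← CU.hE]
    congr 1
    apply inM_injective
    rw [inM_mq, inM_mq, I.s12, hTx]
  · refine CU.ext_mulVec fun x => ?_
    rw [← Matrix.mulVec_mulVec, ← hi1, ← hs2, ← CU.hE]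
    congr 1
    apply inM_injective
    rw [inM_mq, inM_mq, I.s21, hTx]
  · refine CU.ext_mulVec fun x => ?_
    rw [← Matrix.mulVec_mulVec, ← hi2, ← hs2, ← CU.hE, hq]
    congr 1
    apply inM_injective
    rw [inM_mq, inM_mq, I.s22, map_smul]

include hA hU hV in
/-- the matrices at a prime `q ≠ p`, with the field `new` -/
theorem IhQ.exists_mats [IsLocalRing (GR O fun i => p ^ m i)] {q : ℕ} {Φ : GQ}
    (I : IhQ XU XV q Φ) :
    ∃ M : IhM CV.f CU.f q (tA Φ), ∃ G1 G2 : Matrix (Fin CU.d) (Fin CV.d) (GR O fun i => p ^ m i),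
      CV.f ((tA Φ ^ 2 - ((q : A) + 1) ^ 2) ^ 3) = M.i1 * G1 + M.i2 * G2 := by
  obtain ⟨M, h1, h2⟩ := I.toIhD.exists_mats hA hU hV CU CV (hU Φ)
  refine ⟨M, ?_⟩
  refine E2N.new_of CV.f.toRingHom CU.f.toRingHom (τ := tA Φ) (c := (q : A) + 1)
    M.hi1 M.hi2 M.hs1 M.hs2 M.hsi.1 M.hsi.2.1 M.hsi.2.2.1 M.hsi.2.2.2 fun x hx1 hx2 => ?_
  obtain ⟨y, rfl⟩ := CV.E.surjective x
  have h3 : I.s1.u (inM XV.hg y) = 0 := by
    rw [← inM_mq XV.hg XU.hg I.s1.u I.s1.hu]
    have h4 : mq XV.hg XU.hg I.s1.u I.s1.hu y = 0 := by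
      apply CU.E.injective
      rw [h1, hx1, map_zero]
    rw [h4, map_zero]
  have h3' : I.s2.u (inM XV.hg y) = 0 := by
    rw [← inM_mq XV.hg XU.hg I.s2.u I.s2.hu]
    have h4 : mq XV.hg XU.hg I.s2.u I.s2.hu y = 0 := by
      apply CU.E.injective
      rw [h2, hx2, map_zero]
    rw [h4, map_zero]
  have h5 := I.new _ h3 h3'
  change (CV.f (tA Φ ^ 2 - ((q : A) + 1) ^ 2)).mulVec (CV.E y) = 0
  rw [← CV.hE]
  have h6 : acM XV.hg πV (tA Φ ^ 2 - ((q : A) + 1) ^ 2) y = 0 := by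
    apply inM_injective
    rw [acM_apply, inM_smul, map_zero, map_sub, map_pow, map_pow, map_add, map_natCast, map_one, hV]
    exact h5
  rw [h6, map_zero]

end

section min

variable {XM XV : LM hpO hgk v Av m B} {πM : A →ₐ[O] XM.hg.TT} {πV : A →ₐ[O] XV.hg.TT}
  (hM : ∀ g, πM (tA g) = XM.hg.tt g) (hV : ∀ g, πV (tA g) = XV.hg.tt g)
  (CM : Crd (O := O) (GR.δ O fun i => p ^ m i) (acM XM.hg πM) γ)
  (CV : Crd (O := O) (GR.δ O fun i => p ^ m i) (acM XV.hg πV) γ)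

include hA hM hV in
/-- the split injection from the minimal level -/
theorem GMi.exists_mats [IsLocalRing (GR O fun i => p ^ m i)] (u : GMi XM XV) :
    ∃ (j0 : Matrix (Fin CV.d) (Fin CM.d) (GR O fun i => p ^ m i))
      (l0 : Matrix (Fin CM.d) (Fin CV.d) (GR O fun i => p ^ m i)),
      (∀ a, CV.f a * j0 = j0 * CM.f a) ∧ l0 * j0 = 1 := by
  obtain ⟨j0, hj, hj'⟩ := u.toGM.exists_mat hA hM hV CM CV
  obtain ⟨l0, hl0⟩ := exists_left_inv j0 (inj_max₁ hpO j0 fun x hx => by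
    obtain ⟨x', rfl⟩ := CM.E.surjective x
    have h1 : mq XM.hg XV.hg u.u u.hu x' ∈ maximalIdeal O • (⊤ : Submodule O XV.hg.MQ) := by
      rw [mem_coord CV.E]
      intro i
      rw [hj]
      exact hx i
    have h2 := inM_mem_smul XV.hg _ h1
    rw [inM_mq] at h2
    exact (mem_coord CM.E x').1 (mem_smul_inM XM.hg _ (u.inj _ h2)))
  exact ⟨j0, l0, hj', hl0⟩

end min

end

end Fermat.Agent.AsmL
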